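/-
PROGRAMME I, block D-Pet, node PET-4 (lead): integer matrices of prime determinant `ℓ` and the
`ℓ + 1` Hecke representatives.  For every integer matrix `M` of determinant `ℓ` there is exactly
one representative `E i` with `E i * M ≡ 0 mod ℓ` (the left kernel of `M mod ℓ` is a point of the
projective line).  Mathlib only.
-/
import Mathlib

set_option autoImplicit false

namespace Fermat.Agent.FF3.Pet

open Matrix

variable (ℓ : ℕ) [hℓ : Fact ℓ.Prime]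

/-- The integer Hecke representatives, indexed by the projective line over `ZMod ℓ`:
`some t ↦ [1 t; 0 ℓ]`, `none ↦ [ℓ 0; 0 1]`. -/
def heckeInt : Option (ZMod ℓ) → Matrix (Fin 2) (Fin 2) ℤ
  | some t => !![1, (t.val : ℤ); 0, (ℓ : ℤ)]
  | none => !![(ℓ : ℤ), 0; 0, 1]

/-- All entries divisible by `ℓ`. -/
def AllDvd (M : Matrix (Fin 2) (Fin 2) ℤ) : Prop := ∀ r s, (ℓ : ℤ) ∣ M r s

variable {ℓ}

omit hℓ in
theorem allDvd_iff (M : Matrix (Fin 2) (Fin 2) ℤ) :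
    AllDvd ℓ M ↔ ((ℓ : ℤ) ∣ M 0 0 ∧ (ℓ : ℤ) ∣ M 0 1) ∧ ((ℓ : ℤ) ∣ M 1 0 ∧ (ℓ : ℤ) ∣ M 1 1) := by
  constructor
  · intro h
    exact ⟨⟨h 0 0, h 0 1⟩, ⟨h 1 0, h 1 1⟩⟩
  · rintro ⟨⟨h00, h01⟩, ⟨h10, h11⟩⟩ r s
    fin_cases r <;> fin_cases s <;> assumption

omit hℓ in
theorem allDvd_some_mul_iff (t : ZMod ℓ) (M : Matrix (Fin 2) (Fin 2) ℤ) :
    AllDvd ℓ (heckeInt ℓ (some t) * M) ↔
      (ℓ : ℤ) ∣ M 0 0 + (t.val : ℤ) * M 1 0 ∧ (ℓ : ℤ) ∣ M 0 1 + (t.val : ℤ) * M 1 1 := by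
  rw [allDvd_iff]
  simp only [heckeInt, Matrix.mul_apply, Fin.sum_univ_two, Matrix.of_apply, Matrix.cons_val',
    Matrix.cons_val_zero, Matrix.cons_val_one, Matrix.empty_val', Matrix.cons_val_fin_one,
    one_mul, zero_mul, zero_add]
  constructor
  · rintro ⟨h, -⟩
    exact h
  · intro h
    exact ⟨h, Dvd.intro _ rfl, Dvd.intro _ rfl⟩

omit hℓ in
theorem allDvd_none_mul_iff (M : Matrix (Fin 2) (Fin 2) ℤ) :
    AllDvd ℓ (heckeInt ℓ none * M) ↔ (ℓ : ℤ) ∣ M 1 0 ∧ (ℓ : ℤ) ∣ M 1 1 := by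
  rw [allDvd_iff]
  simp only [heckeInt, Matrix.mul_apply, Fin.sum_univ_two, Matrix.of_apply, Matrix.cons_val',
    Matrix.cons_val_zero, Matrix.cons_val_one, Matrix.empty_val', Matrix.cons_val_fin_one,
    one_mul, zero_mul, zero_add, add_zero]
  constructor
  · rintro ⟨-, h⟩
    exact h
  · intro h
    exact ⟨⟨Dvd.intro _ rfl, Dvd.intro _ rfl⟩, h⟩

private theorem dvd_iff_cast (x : ℤ) : (ℓ : ℤ) ∣ x ↔ ((x : ℤ) : ZMod ℓ) = 0 :=
  (ZMod.intCast_zmod_eq_zero_iff_dvd x ℓ).symm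

/-- **Key lemma**: exactly one Hecke representative kills `M` modulo `ℓ` from the left. -/
theorem existsUnique_allDvd_mul {M : Matrix (Fin 2) (Fin 2) ℤ} (hM : M.det = (ℓ : ℤ)) :
    ∃! i : Option (ZMod ℓ), AllDvd ℓ (heckeInt ℓ i * M) := by
  have : NeZero ℓ := ⟨hℓ.out.ne_zero⟩
  set a : ZMod ℓ := ((M 0 0 : ℤ) : ZMod ℓ) with ha
  set b : ZMod ℓ := ((M 0 1 : ℤ) : ZMod ℓ) with hb
  set c : ZMod ℓ := ((M 1 0 : ℤ) : ZMod ℓ) with hc
  set d : ZMod ℓ := ((M 1 1 : ℤ) : ZMod ℓ) with hd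
  have hdet : a * d = b * c := by
    have h1 : ((M.det : ℤ) : ZMod ℓ) = 0 := by rw [hM]; simp
    rw [Matrix.det_fin_two] at h1
    push_cast at h1
    linear_combination h1
  -- not all four entries vanish mod ℓ
  have hnz : ¬ (a = 0 ∧ b = 0 ∧ c = 0 ∧ d = 0) := by
    rintro ⟨h1, h2, h3, h4⟩
    rw [ha, ← dvd_iff_cast] at h1
    rw [hb, ← dvd_iff_cast] at h2
    rw [hc, ← dvd_iff_cast] at h3
    rw [hd, ← dvd_iff_cast] at h4
    obtain ⟨a', ha'⟩ := h1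
    obtain ⟨b', hb'⟩ := h2
    obtain ⟨c', hc'⟩ := h3
    obtain ⟨d', hd'⟩ := h4
    rw [Matrix.det_fin_two, ha', hb', hc', hd'] at hM
    have hℓ0 : (ℓ : ℤ) ≠ 0 := by exact_mod_cast hℓ.out.ne_zero
    have h5 : (ℓ : ℤ) * (a' * d' - b' * c') = 1 := by
      have : (ℓ : ℤ) * ((ℓ : ℤ) * (a' * d' - b' * c')) = (ℓ : ℤ) * 1 := by linarith
      exact mul_left_cancel₀ hℓ0 this
    have h6 : (ℓ : ℤ) ∣ 1 := Dvd.intro _ h5
    have h7 : (ℓ : ℤ) = 1 ∨ (ℓ : ℤ) = -1 := Int.isUnit_iff.mp (isUnit_of_dvd_one h6)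
    have h8 : (2 : ℤ) ≤ ℓ := by exact_mod_cast hℓ.out.two_le
    omega
  have some_iff : ∀ t : ZMod ℓ, AllDvd ℓ (heckeInt ℓ (some t) * M) ↔ a + t * c = 0 ∧ b + t * d = 0 := by
    intro t
    rw [allDvd_some_mul_iff, dvd_iff_cast, dvd_iff_cast]
    push_cast
    rw [ZMod.natCast_zmod_val]
  have none_iff : AllDvd ℓ (heckeInt ℓ none * M) ↔ c = 0 ∧ d = 0 := by
    rw [allDvd_none_mul_iff, dvd_iff_cast, dvd_iff_cast]
  by_cases hcd : c = 0 ∧ d = 0
  · refine ⟨none, none_iff.mpr hcd, ?_⟩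
    rintro (_ | t) ht
    · rfl
    · exfalso
      obtain ⟨h1, h2⟩ := (some_iff t).mp ht
      rw [hcd.1, mul_zero, add_zero] at h1
      rw [hcd.2, mul_zero, add_zero] at h2
      exact hnz ⟨h1, h2, hcd.1, hcd.2⟩
  · by_cases hc0 : c = 0
    · have hd0 : d ≠ 0 := fun h => hcd ⟨hc0, h⟩
      have ha0 : a = 0 := by
        have : a * d = 0 := by rw [hdet, hc0, mul_zero]
        exact (mul_eq_zero.mp this).resolve_right hd0
      refine ⟨some (-b / d), (some_iff _).mpr ⟨by rw [ha0, hc0]; ring, by field_simp; ring⟩, ?_⟩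
      rintro (_ | t) ht
      · exact absurd (none_iff.mp ht) hcd
      · obtain ⟨-, h2⟩ := (some_iff t).mp ht
        congr 1
        field_simp
        linear_combination h2
    · refine ⟨some (-a / c), (some_iff _).mpr ⟨by field_simp; ring, ?_⟩, ?_⟩
      · have : c * (b + -a / c * d) = 0 := by
          field_simp
          linear_combination -hdet
        exact (mul_eq_zero.mp this).resolve_left hc0
      rintro (_ | t) ht
      · exact absurd (none_iff.mp ht) hcd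
      · obtain ⟨h1, -⟩ := (some_iff t).mp ht
        congr 1
        field_simp
        linear_combination h1


/-! ### Adjugates and the right-hand version -/

omit hℓ in
theorem allDvd_adjugate_iff (X : Matrix (Fin 2) (Fin 2) ℤ) :
    AllDvd ℓ X.adjugate ↔ AllDvd ℓ X := by
  rw [allDvd_iff, allDvd_iff, Matrix.adjugate_fin_two]
  simp only [Matrix.of_apply, Matrix.cons_val', Matrix.cons_val_zero, Matrix.cons_val_one,
    Matrix.empty_val', Matrix.cons_val_fin_one, dvd_neg]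
  tauto

omit hℓ in
theorem det_heckeInt [NeZero ℓ] (i : Option (ZMod ℓ)) : (heckeInt ℓ i).det = (ℓ : ℤ) := by
  cases i <;> simp [heckeInt, Matrix.det_fin_two]

omit hℓ in
theorem adjugate_adjugate_two (M : Matrix (Fin 2) (Fin 2) ℤ) : M.adjugate.adjugate = M := by
  rw [Matrix.adjugate_fin_two, Matrix.adjugate_fin_two]
  ext r s
  fin_cases r <;> fin_cases s <;> simp

omit hℓ in
theorem det_adjugate_two (M : Matrix (Fin 2) (Fin 2) ℤ) : M.adjugate.det = M.det := by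
  rw [Matrix.adjugate_fin_two, Matrix.det_fin_two, Matrix.det_fin_two]
  simp
  ring

/-- Right-hand version of the key lemma. -/
theorem existsUnique_allDvd_mul_adjugate {M : Matrix (Fin 2) (Fin 2) ℤ} (hM : M.det = (ℓ : ℤ)) :
    ∃! i : Option (ZMod ℓ), AllDvd ℓ (M * (heckeInt ℓ i).adjugate) := by
  have h := existsUnique_allDvd_mul (ℓ := ℓ) (M := M.adjugate) (by rw [det_adjugate_two, hM])
  have key : ∀ i, AllDvd ℓ (heckeInt ℓ i * M.adjugate) ↔ AllDvd ℓ (M * (heckeInt ℓ i).adjugate) := by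
    intro i
    rw [← allDvd_adjugate_iff (heckeInt ℓ i * M.adjugate), Matrix.adjugate_mul_distrib,
      adjugate_adjugate_two]
  simpa only [key] using h

/-- Division by `ℓ` of a matrix all of whose entries are divisible by `ℓ`, of determinant `ℓ²`. -/
theorem existsUnique_smul_eq {X : Matrix (Fin 2) (Fin 2) ℤ} (hX : AllDvd ℓ X)
    (hdet : X.det = (ℓ : ℤ) ^ 2) :
    ∃! g : Matrix.SpecialLinearGroup (Fin 2) ℤ, (ℓ : ℤ) • (g : Matrix (Fin 2) (Fin 2) ℤ) = X := by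
  have hℓ0 : (ℓ : ℤ) ≠ 0 := by exact_mod_cast hℓ.out.ne_zero
  obtain ⟨x00, h00⟩ := hX 0 0
  obtain ⟨x01, h01⟩ := hX 0 1
  obtain ⟨x10, h10⟩ := hX 1 0
  obtain ⟨x11, h11⟩ := hX 1 1
  have hXeq : X = (ℓ : ℤ) • !![x00, x01; x10, x11] := by
    ext r s
    fin_cases r <;> fin_cases s <;> simp [h00, h01, h10, h11]
  have hd : (!![x00, x01; x10, x11] : Matrix (Fin 2) (Fin 2) ℤ).det = 1 := by
    rw [hXeq, Matrix.det_smul, Fintype.card_fin] at hdet
    have : (ℓ : ℤ) ^ 2 * (!![x00, x01; x10, x11] : Matrix (Fin 2) (Fin 2) ℤ).det = (ℓ : ℤ) ^ 2 * 1 := by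
      rw [hdet, mul_one]
    exact mul_left_cancel₀ (pow_ne_zero 2 hℓ0) this
  refine ⟨⟨!![x00, x01; x10, x11], hd⟩, hXeq.symm, ?_⟩
  intro g hg
  apply Subtype.ext
  have : (ℓ : ℤ) • (g : Matrix (Fin 2) (Fin 2) ℤ) = (ℓ : ℤ) • !![x00, x01; x10, x11] := by
    rw [hg, hXeq]
  exact smul_right_injective _ hℓ0 this

/-! ### The relation between `(g, i)` and `(j, g')` -/

/-- `E j * g * E i = ℓ • g'`. -/
def HeckeRel (p : Matrix.SpecialLinearGroup (Fin 2) ℤ × Option (ZMod ℓ))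
    (q : Option (ZMod ℓ) × Matrix.SpecialLinearGroup (Fin 2) ℤ) : Prop :=
  heckeInt ℓ q.1 * (p.1 : Matrix (Fin 2) (Fin 2) ℤ) * heckeInt ℓ p.2 =
    (ℓ : ℤ) • (q.2 : Matrix (Fin 2) (Fin 2) ℤ)

theorem heckeRel_iff (p : Matrix.SpecialLinearGroup (Fin 2) ℤ × Option (ZMod ℓ))
    (q : Option (ZMod ℓ) × Matrix.SpecialLinearGroup (Fin 2) ℤ) :
    HeckeRel p q ↔ (heckeInt ℓ q.1).adjugate * (q.2 : Matrix (Fin 2) (Fin 2) ℤ) *
      (heckeInt ℓ p.2).adjugate = (ℓ : ℤ) • (p.1 : Matrix (Fin 2) (Fin 2) ℤ) := by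
  have : NeZero ℓ := ⟨hℓ.out.ne_zero⟩
  have hℓ0 : (ℓ : ℤ) ≠ 0 := by exact_mod_cast hℓ.out.ne_zero
  obtain ⟨g, i⟩ := p
  obtain ⟨j, g'⟩ := q
  simp only [HeckeRel]
  set Ej := heckeInt ℓ j
  set Ei := heckeInt ℓ i
  have hj1 : Ej.adjugate * Ej = (ℓ : ℤ) • (1 : Matrix (Fin 2) (Fin 2) ℤ) := by
    rw [Matrix.adjugate_mul, det_heckeInt]
  have hj2 : Ej * Ej.adjugate = (ℓ : ℤ) • (1 : Matrix (Fin 2) (Fin 2) ℤ) := by
    rw [Matrix.mul_adjugate, det_heckeInt]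
  have hi1 : Ei.adjugate * Ei = (ℓ : ℤ) • (1 : Matrix (Fin 2) (Fin 2) ℤ) := by
    rw [Matrix.adjugate_mul, det_heckeInt]
  have hi2 : Ei * Ei.adjugate = (ℓ : ℤ) • (1 : Matrix (Fin 2) (Fin 2) ℤ) := by
    rw [Matrix.mul_adjugate, det_heckeInt]
  constructor
  · intro h
    have h1 : Ej.adjugate * (Ej * (g : Matrix (Fin 2) (Fin 2) ℤ) * Ei) * Ei.adjugate =
        Ej.adjugate * ((ℓ : ℤ) • (g' : Matrix (Fin 2) (Fin 2) ℤ)) * Ei.adjugate := by rw [h]
    have h2 : Ej.adjugate * (Ej * (g : Matrix (Fin 2) (Fin 2) ℤ) * Ei) * Ei.adjugate =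
        (ℓ : ℤ) • ((ℓ : ℤ) • (g : Matrix (Fin 2) (Fin 2) ℤ)) := by
      calc Ej.adjugate * (Ej * (g : Matrix (Fin 2) (Fin 2) ℤ) * Ei) * Ei.adjugate
          = (Ej.adjugate * Ej) * (g : Matrix (Fin 2) (Fin 2) ℤ) * (Ei * Ei.adjugate) := by
            simp only [Matrix.mul_assoc]
        _ = _ := by
            rw [hj1, hi2]
            simp only [Matrix.smul_mul, Matrix.mul_smul, Matrix.one_mul, Matrix.mul_one]
    rw [h2] at h1
    have h3 : (ℓ : ℤ) • ((ℓ : ℤ) • (g : Matrix (Fin 2) (Fin 2) ℤ)) =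
        (ℓ : ℤ) • (Ej.adjugate * (g' : Matrix (Fin 2) (Fin 2) ℤ) * Ei.adjugate) := by
      rw [h1]
      simp only [Matrix.smul_mul, Matrix.mul_smul]
    exact (smul_right_injective _ hℓ0 h3).symm
  · intro h
    have h1 : Ej * (Ej.adjugate * (g' : Matrix (Fin 2) (Fin 2) ℤ) * Ei.adjugate) * Ei =
        Ej * ((ℓ : ℤ) • (g : Matrix (Fin 2) (Fin 2) ℤ)) * Ei := by rw [h]
    have h2 : Ej * (Ej.adjugate * (g' : Matrix (Fin 2) (Fin 2) ℤ) * Ei.adjugate) * Ei =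
        (ℓ : ℤ) • ((ℓ : ℤ) • (g' : Matrix (Fin 2) (Fin 2) ℤ)) := by
      calc Ej * (Ej.adjugate * (g' : Matrix (Fin 2) (Fin 2) ℤ) * Ei.adjugate) * Ei
          = (Ej * Ej.adjugate) * (g' : Matrix (Fin 2) (Fin 2) ℤ) * (Ei.adjugate * Ei) := by
            simp only [Matrix.mul_assoc]
        _ = _ := by
            rw [hj2, hi1]
            simp only [Matrix.smul_mul, Matrix.mul_smul, Matrix.one_mul, Matrix.mul_one]
    rw [h2] at h1
    have h3 : (ℓ : ℤ) • ((ℓ : ℤ) • (g' : Matrix (Fin 2) (Fin 2) ℤ)) =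
        (ℓ : ℤ) • (Ej * (g : Matrix (Fin 2) (Fin 2) ℤ) * Ei) := by
      rw [h1]
      simp only [Matrix.smul_mul, Matrix.mul_smul]
    exact (smul_right_injective _ hℓ0 h3).symm

theorem existsUnique_heckeRel_right (p : Matrix.SpecialLinearGroup (Fin 2) ℤ × Option (ZMod ℓ)) :
    ∃! q : Option (ZMod ℓ) × Matrix.SpecialLinearGroup (Fin 2) ℤ, HeckeRel p q := by
  have : NeZero ℓ := ⟨hℓ.out.ne_zero⟩
  obtain ⟨g, i⟩ := p
  have hM : ((g : Matrix (Fin 2) (Fin 2) ℤ) * heckeInt ℓ i).det = (ℓ : ℤ) := by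
    rw [Matrix.det_mul, det_heckeInt, g.det_coe, one_mul]
  obtain ⟨j, hj, hju⟩ := existsUnique_allDvd_mul (ℓ := ℓ) hM
  have hdet : (heckeInt ℓ j * ((g : Matrix (Fin 2) (Fin 2) ℤ) * heckeInt ℓ i)).det = (ℓ : ℤ) ^ 2 := by
    rw [Matrix.det_mul, det_heckeInt, hM, sq]
  obtain ⟨g', hg', hg'u⟩ := existsUnique_smul_eq hj hdet
  refine ⟨(j, g'), ?_, ?_⟩
  · simp only [HeckeRel, Matrix.mul_assoc]
    exact hg'.symm
  · rintro ⟨j₂, g₂⟩ h₂
    simp only [HeckeRel, Matrix.mul_assoc] at h₂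
    have hj₂ : AllDvd ℓ (heckeInt ℓ j₂ * ((g : Matrix (Fin 2) (Fin 2) ℤ) * heckeInt ℓ i)) := by
      rw [h₂]
      intro r s
      exact ⟨(g₂ : Matrix (Fin 2) (Fin 2) ℤ) r s, by simp⟩
    have hjj : j₂ = j := hju j₂ hj₂
    subst hjj
    have : g₂ = g' := hg'u g₂ h₂.symm
    rw [this]

theorem existsUnique_heckeRel_left (q : Option (ZMod ℓ) × Matrix.SpecialLinearGroup (Fin 2) ℤ) :
    ∃! p : Matrix.SpecialLinearGroup (Fin 2) ℤ × Option (ZMod ℓ), HeckeRel p q := by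
  have : NeZero ℓ := ⟨hℓ.out.ne_zero⟩
  obtain ⟨j, g'⟩ := q
  have hM : ((heckeInt ℓ j).adjugate * (g' : Matrix (Fin 2) (Fin 2) ℤ)).det = (ℓ : ℤ) := by
    rw [Matrix.det_mul, det_adjugate_two, det_heckeInt, g'.det_coe, mul_one]
  obtain ⟨i, hi, hiu⟩ := existsUnique_allDvd_mul_adjugate (ℓ := ℓ) hM
  have hdet : ((heckeInt ℓ j).adjugate * (g' : Matrix (Fin 2) (Fin 2) ℤ) *
      (heckeInt ℓ i).adjugate).det = (ℓ : ℤ) ^ 2 := by
    rw [Matrix.det_mul, hM, det_adjugate_two, det_heckeInt, sq]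
  obtain ⟨g, hg, hgu⟩ := existsUnique_smul_eq hi hdet
  refine ⟨(g, i), (heckeRel_iff _ _).mpr hg.symm, ?_⟩
  rintro ⟨g₂, i₂⟩ h₂
  have h₂' := (heckeRel_iff _ _).mp h₂
  simp only at h₂'
  have hi₂ : AllDvd ℓ ((heckeInt ℓ j).adjugate * (g' : Matrix (Fin 2) (Fin 2) ℤ) *
      (heckeInt ℓ i₂).adjugate) := by
    rw [h₂']
    intro r s
    exact ⟨(g₂ : Matrix (Fin 2) (Fin 2) ℤ) r s, by simp⟩
  have hii : i₂ = i := hiu i₂ hi₂
  subst hii
  have : g₂ = g := hgu g₂ h₂'.symm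
  rw [this]


/-! ### The bijection -/

/-- The bijection `(g, i) ↦ (j, g')` with `E j * g * E i = ℓ • g'` on `SL(2, ℤ) × P¹(𝔽_ℓ)`. -/
noncomputable def heckeEquivSL :
    Matrix.SpecialLinearGroup (Fin 2) ℤ × Option (ZMod ℓ) ≃
      Option (ZMod ℓ) × Matrix.SpecialLinearGroup (Fin 2) ℤ where
  toFun p := Classical.choose (existsUnique_heckeRel_right p).exists
  invFun q := Classical.choose (existsUnique_heckeRel_left q).exists
  left_inv p := by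
    have h1 := Classical.choose_spec (existsUnique_heckeRel_right p).exists
    set q := Classical.choose (existsUnique_heckeRel_right p).exists
    have h2 := Classical.choose_spec (existsUnique_heckeRel_left q).exists
    exact (existsUnique_heckeRel_left q).unique h2 h1
  right_inv q := by
    have h1 := Classical.choose_spec (existsUnique_heckeRel_left q).exists
    set p := Classical.choose (existsUnique_heckeRel_left q).exists
    have h2 := Classical.choose_spec (existsUnique_heckeRel_right p).exists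
    exact (existsUnique_heckeRel_right p).unique h2 h1

theorem heckeRel_heckeEquivSL (p : Matrix.SpecialLinearGroup (Fin 2) ℤ × Option (ZMod ℓ)) :
    HeckeRel p (heckeEquivSL p) :=
  Classical.choose_spec (existsUnique_heckeRel_right p).exists

theorem heckeRel_heckeEquivSL_symm (q : Option (ZMod ℓ) × Matrix.SpecialLinearGroup (Fin 2) ℤ) :
    HeckeRel (heckeEquivSL.symm q) q :=
  Classical.choose_spec (existsUnique_heckeRel_left q).exists

/-- The relation preserves `Γ₀(N)` when `ℓ ∤ N`. -/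
theorem heckeRel_mem_Gamma0_iff {N : ℕ} (hN : ¬ ℓ ∣ N)
    {p : Matrix.SpecialLinearGroup (Fin 2) ℤ × Option (ZMod ℓ)}
    {q : Option (ZMod ℓ) × Matrix.SpecialLinearGroup (Fin 2) ℤ} (h : HeckeRel p q) :
    p.1 ∈ CongruenceSubgroup.Gamma0 N ↔ q.2 ∈ CongruenceSubgroup.Gamma0 N := by
  obtain ⟨g, i⟩ := p
  obtain ⟨j, g'⟩ := q
  have hcop : IsUnit ((ℓ : ℤ) : ZMod N) := by
    have : IsUnit ((ℓ : ℕ) : ZMod N) :=
      (ZMod.isUnit_iff_coprime ℓ N).mpr ((Nat.Prime.coprime_iff_not_dvd hℓ.out).mpr hN)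
    simpa using this
  rw [CongruenceSubgroup.Gamma0_mem, CongruenceSubgroup.Gamma0_mem]
  simp only [HeckeRel] at h
  have h10 := congrFun (congrFun h 1) 0
  rcases i with _ | t <;> rcases j with _ | s <;>
    simp only [heckeInt, Matrix.mul_apply, Fin.sum_univ_two, Matrix.of_apply, Matrix.cons_val',
      Matrix.cons_val_zero, Matrix.cons_val_one, Matrix.empty_val', Matrix.cons_val_fin_one,
      Matrix.smul_apply, smul_eq_mul, one_mul, zero_mul, mul_zero, mul_one, zero_add,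
      add_zero] at h10
  · -- i = none, j = none : g10 * ℓ = ℓ * g'10
    have h' : ((g.1 1 0 : ℤ) : ZMod N) * ((ℓ : ℤ) : ZMod N) = ((ℓ : ℤ) : ZMod N) * ((g'.1 1 0 : ℤ) : ZMod N) := by
      exact_mod_cast congrArg (Int.cast : ℤ → ZMod N) h10
    constructor
    · intro hg
      have : ((ℓ : ℤ) : ZMod N) * ((g'.1 1 0 : ℤ) : ZMod N) = 0 := by rw [← h']; simp [hg]
      exact (hcop.mul_right_eq_zero).mp this
    · intro hg
      have : ((g.1 1 0 : ℤ) : ZMod N) * ((ℓ : ℤ) : ZMod N) = 0 := by rw [h']; simp [hg]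
      exact (hcop.mul_left_eq_zero).mp this
  · -- i = none, j = some : ℓ * g10 * ℓ = ℓ * g'10
    have h' : ((ℓ : ℤ) : ZMod N) * ((g.1 1 0 : ℤ) : ZMod N) * ((ℓ : ℤ) : ZMod N) =
        ((ℓ : ℤ) : ZMod N) * ((g'.1 1 0 : ℤ) : ZMod N) := by
      exact_mod_cast congrArg (Int.cast : ℤ → ZMod N) h10
    constructor
    · intro hg
      have : ((ℓ : ℤ) : ZMod N) * ((g'.1 1 0 : ℤ) : ZMod N) = 0 := by rw [← h']; simp [hg]
      exact (hcop.mul_right_eq_zero).mp this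
    · intro hg
      have h1 : ((ℓ : ℤ) : ZMod N) * ((g.1 1 0 : ℤ) : ZMod N) * ((ℓ : ℤ) : ZMod N) = 0 := by
        rw [h']; simp [hg]
      have h2 : ((ℓ : ℤ) : ZMod N) * ((g.1 1 0 : ℤ) : ZMod N) = 0 :=
        (hcop.mul_left_eq_zero).mp h1
      exact (hcop.mul_right_eq_zero).mp h2
  · -- i = some, j = none : g10 = ℓ * g'10
    have h' : ((g.1 1 0 : ℤ) : ZMod N) = ((ℓ : ℤ) : ZMod N) * ((g'.1 1 0 : ℤ) : ZMod N) := by
      exact_mod_cast congrArg (Int.cast : ℤ → ZMod N) h10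
    constructor
    · intro hg
      have : ((ℓ : ℤ) : ZMod N) * ((g'.1 1 0 : ℤ) : ZMod N) = 0 := by rw [← h']; exact hg
      exact (hcop.mul_right_eq_zero).mp this
    · intro hg
      show ((g.1 1 0 : ℤ) : ZMod N) = 0
      rw [h']
      have : ((g'.1 1 0 : ℤ) : ZMod N) = 0 := hg
      rw [this, mul_zero]
  · -- i = some, j = some : ℓ * g10 = ℓ * g'10
    have h' : ((ℓ : ℤ) : ZMod N) * ((g.1 1 0 : ℤ) : ZMod N) =
        ((ℓ : ℤ) : ZMod N) * ((g'.1 1 0 : ℤ) : ZMod N) := by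
      exact_mod_cast congrArg (Int.cast : ℤ → ZMod N) h10
    have h'' : ((g.1 1 0 : ℤ) : ZMod N) = ((g'.1 1 0 : ℤ) : ZMod N) := hcop.mul_left_cancel h'
    show ((g.1 1 0 : ℤ) : ZMod N) = 0 ↔ ((g'.1 1 0 : ℤ) : ZMod N) = 0
    rw [h'']


/-- The bijection restricted to `Γ₀(N)`, `ℓ ∤ N`. -/
noncomputable def heckeEquivGamma0 {N : ℕ} (hN : ¬ ℓ ∣ N) :
    ↥(CongruenceSubgroup.Gamma0 N) × Option (ZMod ℓ) ≃
      Option (ZMod ℓ) × ↥(CongruenceSubgroup.Gamma0 N) where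
  toFun p := ((heckeEquivSL (p.1.1, p.2)).1, ⟨(heckeEquivSL (p.1.1, p.2)).2,
    (heckeRel_mem_Gamma0_iff hN (heckeRel_heckeEquivSL (p.1.1, p.2))).mp p.1.2⟩)
  invFun q := (⟨(heckeEquivSL.symm (q.1, q.2.1)).1,
    (heckeRel_mem_Gamma0_iff hN (heckeRel_heckeEquivSL_symm (q.1, q.2.1))).mpr q.2.2⟩,
    (heckeEquivSL.symm (q.1, q.2.1)).2)
  left_inv p := by
    obtain ⟨⟨g, hg⟩, i⟩ := p
    have h : heckeEquivSL.symm ((heckeEquivSL (g, i)).1, (heckeEquivSL (g, i)).2) = (g, i) := by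
      rw [Prod.mk.eta, Equiv.symm_apply_apply]
    apply Prod.ext
    · apply Subtype.ext
      exact congrArg Prod.fst h
    · show (heckeEquivSL.symm ((heckeEquivSL (g, i)).1, (heckeEquivSL (g, i)).2)).2 = i
      exact congrArg Prod.snd h
  right_inv q := by
    obtain ⟨j, ⟨g', hg'⟩⟩ := q
    have h : heckeEquivSL ((heckeEquivSL.symm (j, g')).1, (heckeEquivSL.symm (j, g')).2) = (j, g') := by
      rw [Prod.mk.eta, Equiv.apply_symm_apply]
    apply Prod.ext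
    · show (heckeEquivSL ((heckeEquivSL.symm (j, g')).1, (heckeEquivSL.symm (j, g')).2)).1 = j
      exact congrArg Prod.fst h
    · apply Subtype.ext
      exact congrArg Prod.snd h

theorem heckeRel_heckeEquivGamma0 {N : ℕ} (hN : ¬ ℓ ∣ N)
    (p : ↥(CongruenceSubgroup.Gamma0 N) × Option (ZMod ℓ)) :
    HeckeRel (p.1.1, p.2) ((heckeEquivGamma0 hN p).1, ((heckeEquivGamma0 hN p).2 : Matrix.SpecialLinearGroup (Fin 2) ℤ)) :=
  heckeRel_heckeEquivSL (p.1.1, p.2)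

end Fermat.Agent.FF3.Pet
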