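/-
PROGRAMME I, block D-Pet (lead): real Hecke representatives, invariance of the Moebius action and of
the weight-2 slash action under positive scalars, and the real form of the coset relation.
-/
import Fermat.Prelude.Def_ModularForm_HeckeOperatorForms
import Fermat.Agent.FF3.Pet.Coset

set_option autoImplicit false

namespace Fermat.Agent.FF3.Pet

open UpperHalfPlane Matrix
open scoped MatrixGroups ModularForm

/-- Positive scalar multiples act in the same way on the upper half-plane. -/
theorem smul_eq_of_val_eq_smul {A A' : GL (Fin 2) ℝ} {c : ℝ} (hc : 0 < c)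
    (h : (A : Matrix (Fin 2) (Fin 2) ℝ) = c • (A' : Matrix (Fin 2) (Fin 2) ℝ)) (τ : ℍ) :
    A • τ = A' • τ := by
  have hdet : A.det.val = c ^ 2 * A'.det.val := by
    rw [Matrix.GeneralLinearGroup.val_det_apply, Matrix.GeneralLinearGroup.val_det_apply, h,
      Matrix.det_smul, Fintype.card_fin]
  have hσ : σ A = σ A' := by
    simp only [σ, hdet]
    have : 0 < c ^ 2 * A'.det.val ↔ 0 < A'.det.val := by
      constructor
      · intro h1
        by_contra h2
        rw [not_lt] at h2
        nlinarith [sq_nonneg c, pow_pos hc 2]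
      · intro h1
        positivity
    simp only [this]
  have hentry : ∀ r s, A r s = c * A' r s := fun r s => by
    have := congrFun (congrFun h r) s
    simpa using this
  apply UpperHalfPlane.ext
  rw [UpperHalfPlane.coe_smul, UpperHalfPlane.coe_smul, hσ]
  congr 1
  have hc' : (c : ℂ) ≠ 0 := by exact_mod_cast hc.ne'
  have hd : denom A' τ ≠ 0 := denom_ne_zero A' τ
  simp only [num, denom, hentry]
  push_cast
  field_simp

/-- Positive scalar multiples slash in the same way in weight `2`. -/
theorem slash_eq_of_val_eq_smul {A A' : GL (Fin 2) ℝ} {c : ℝ} (hc : 0 < c)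
    (h : (A : Matrix (Fin 2) (Fin 2) ℝ) = c • (A' : Matrix (Fin 2) (Fin 2) ℝ)) (F : ℍ → ℂ) :
    F ∣[(2 : ℤ)] A = F ∣[(2 : ℤ)] A' := by
  have hdet : A.det.val = c ^ 2 * A'.det.val := by
    rw [Matrix.GeneralLinearGroup.val_det_apply, Matrix.GeneralLinearGroup.val_det_apply, h,
      Matrix.det_smul, Fintype.card_fin]
  have hσ : σ A = σ A' := by
    simp only [σ, hdet]
    have : 0 < c ^ 2 * A'.det.val ↔ 0 < A'.det.val := by
      constructor
      · intro h1
        by_contra h2
        rw [not_lt] at h2
        nlinarith [sq_nonneg c, pow_pos hc 2]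
      · intro h1
        positivity
    simp only [this]
  have hentry : ∀ r s, A r s = c * A' r s := fun r s => by
    have := congrFun (congrFun h r) s
    simpa using this
  ext τ
  rw [ModularForm.slash_apply, ModularForm.slash_apply, smul_eq_of_val_eq_smul hc h τ, hσ, hdet]
  have hc' : (c : ℂ) ≠ 0 := by exact_mod_cast hc.ne'
  have hd : denom A' τ ≠ 0 := denom_ne_zero A' τ
  have hden : denom A τ = c * denom A' τ := by
    simp only [denom, hentry]
    push_cast
    ring
  rw [hden, abs_mul, abs_of_pos (pow_pos hc 2)]
  push_cast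
  rw [zpow_one, zpow_one, mul_zpow]
  simp only [_root_.zpow_neg]
  field_simp

end Fermat.Agent.FF3.Pet
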