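/-
PROGRAMME I, block D-Pet (lead): the real Hecke representatives and the real form of the coset
relation `g * e i = ℓ • ((e j)⁻¹ * g')`.
-/
import Fermat.Agent.FF3.Pet.Scalar

set_option autoImplicit false

namespace Fermat.Agent.FF3.Pet

open UpperHalfPlane Matrix
open scoped MatrixGroups ModularForm

variable {ℓ : ℕ} [hℓ : Fact ℓ.Prime]

/-- The real Hecke representatives, indexed by the projective line over `ZMod ℓ`. -/
noncomputable def heckeGL (ℓ : ℕ) : Option (ZMod ℓ) → GL (Fin 2) ℝ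
  | some t => ModularForm.heckeMatrix ℓ t.val
  | none => ModularForm.heckeDiagMatrix ℓ

theorem val_heckeGL (i : Option (ZMod ℓ)) :
    ((heckeGL ℓ i : GL (Fin 2) ℝ) : Matrix (Fin 2) (Fin 2) ℝ) =
      (heckeInt ℓ i).map (Int.cast : ℤ → ℝ) := by
  have hp : ℓ ≠ 0 := hℓ.out.ne_zero
  cases i with
  | none =>
    simp only [heckeGL, heckeInt, ModularForm.val_heckeDiagMatrix hp]
    ext r s
    fin_cases r <;> fin_cases s <;> simp
  | some t =>
    simp only [heckeGL, heckeInt, ModularForm.val_heckeMatrix hp]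
    ext r s
    fin_cases r <;> fin_cases s <;> simp

omit hℓ in
theorem det_heckeGL_pos (i : Option (ZMod ℓ)) : 0 < ((heckeGL ℓ i).det : ℝ) := by
  cases i with
  | none => exact ModularForm.det_heckeDiagMatrix_pos ℓ
  | some t => exact ModularForm.det_heckeMatrix_pos ℓ t.val

/-- Real form of the coset relation. -/
theorem heckeRel_real {g g' : Matrix.SpecialLinearGroup (Fin 2) ℤ} {i j : Option (ZMod ℓ)}
    (h : HeckeRel (g, i) (j, g')) :
    ((Matrix.SpecialLinearGroup.mapGL ℝ g * heckeGL ℓ i : GL (Fin 2) ℝ) :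
        Matrix (Fin 2) (Fin 2) ℝ) =
      (ℓ : ℝ) • (((heckeGL ℓ j)⁻¹ * Matrix.SpecialLinearGroup.mapGL ℝ g' : GL (Fin 2) ℝ) :
        Matrix (Fin 2) (Fin 2) ℝ) := by
  simp only [HeckeRel] at h
  have hR : ((heckeGL ℓ j : GL (Fin 2) ℝ) : Matrix (Fin 2) (Fin 2) ℝ) *
      ((Matrix.SpecialLinearGroup.mapGL ℝ g * heckeGL ℓ i : GL (Fin 2) ℝ) :
        Matrix (Fin 2) (Fin 2) ℝ) =
      (ℓ : ℝ) • ((Matrix.SpecialLinearGroup.mapGL ℝ g' : GL (Fin 2) ℝ) :
        Matrix (Fin 2) (Fin 2) ℝ) := by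
    have h' := congrArg (fun M : Matrix (Fin 2) (Fin 2) ℤ => M.map (Int.cast : ℤ → ℝ)) h
    simp only [Matrix.map_mul_intCast] at h'
    rw [Units.val_mul, val_heckeGL, val_heckeGL, Matrix.SpecialLinearGroup.mapGL_coe_matrix,
      Matrix.SpecialLinearGroup.mapGL_coe_matrix, ← Matrix.mul_assoc]
    simp only [algebraMap_int_eq, Matrix.SpecialLinearGroup.map_apply_coe,
      RingHom.mapMatrix_apply, Int.coe_castRingHom]
    rw [h']
    ext r s
    simp only [Matrix.map_apply, Matrix.smul_apply, smul_eq_mul, Int.cast_mul, Int.cast_natCast]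
  have hinv : (((heckeGL ℓ j)⁻¹ : GL (Fin 2) ℝ) : Matrix (Fin 2) (Fin 2) ℝ) *
      ((heckeGL ℓ j : GL (Fin 2) ℝ) : Matrix (Fin 2) (Fin 2) ℝ) = 1 := by
    rw [← Units.val_mul, inv_mul_cancel, Units.val_one]
  calc ((Matrix.SpecialLinearGroup.mapGL ℝ g * heckeGL ℓ i : GL (Fin 2) ℝ) :
        Matrix (Fin 2) (Fin 2) ℝ)
      = (((heckeGL ℓ j)⁻¹ : GL (Fin 2) ℝ) : Matrix (Fin 2) (Fin 2) ℝ) *
          (((heckeGL ℓ j : GL (Fin 2) ℝ) : Matrix (Fin 2) (Fin 2) ℝ) *
            ((Matrix.SpecialLinearGroup.mapGL ℝ g * heckeGL ℓ i : GL (Fin 2) ℝ) :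
              Matrix (Fin 2) (Fin 2) ℝ)) := by
        rw [← Matrix.mul_assoc, hinv, Matrix.one_mul]
    _ = _ := by
        rw [hR, Matrix.mul_smul, Units.val_mul]

end Fermat.Agent.FF3.Pet
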