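/-
PROGRAMME I, block D-Pet, node PET-0 (lead): Gamma-weights (partitions of unity along the orbits of
a countable group acting on a measure space) and the unfolding lemma.  Mathlib only.
-/
import Mathlib

set_option autoImplicit false

namespace Fermat.Agent.FF3.Pet

open MeasureTheory

variable {G : Type*} [Group G] {X : Type*} [MeasurableSpace X] [MulAction G X]

/-- A `Γ`-weight: a nonnegative integrable function whose translates along every `Γ`-orbit
sum to `1`. -/
structure IsWeight (μ : Measure X) (Γ : Subgroup G) (w : X → ℝ) : Prop where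
  measurable : Measurable w
  nonneg : ∀ x, 0 ≤ w x
  integrable : Integrable w μ
  hasSum : ∀ x, HasSum (fun g : Γ => w ((g : G) • x)) 1

namespace IsWeight

variable {μ : Measure X} {Γ : Subgroup G} {w : X → ℝ}

theorem hasSum_inv (hw : IsWeight μ Γ w) (x : X) :
    HasSum (fun g : Γ => w (((g : G)⁻¹) • x)) 1 := by
  have h := hw.hasSum x
  have := (Equiv.inv Γ).hasSum_iff.mpr h
  simpa [Function.comp_def] using this

theorem le_one (hw : IsWeight μ Γ w) (x : X) : w x ≤ 1 := by
  have h := hw.hasSum x
  have := le_hasSum h (1 : Γ) (fun g _ => hw.nonneg _)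
  simpa using this

/-- **Unfolding.**  For a bounded measurable `F` and any measurable map `y`, inserting
`1 = ∑ g, w (g • y x)` under the integral sign. -/
theorem hasSum_integral [Countable Γ] [MeasurableConstSMul G X] (hw : IsWeight μ Γ w)
    {F : X → ℂ} (hF : AEStronglyMeasurable F μ) {C : ℝ} (hC : ∀ x, ‖F x‖ ≤ C)
    {y : X → X} (hy : Measurable y) :
    HasSum (fun g : Γ => ∫ x, F x * (w x : ℂ) * (w ((g : G) • y x) : ℂ) ∂μ)
      (∫ x, F x * (w x : ℂ) ∂μ) := by
  have hwm : ∀ g : Γ, Measurable fun x => w ((g : G) • y x) := fun g =>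
    hw.measurable.comp ((measurable_const_smul (g : G)).comp hy)
  refine hasSum_integral_of_dominated_convergence
    (fun (g : Γ) x => |C| * w x * w ((g : G) • y x)) ?_ ?_ ?_ ?_ ?_
  · intro g
    refine (hF.mul ?_).mul ?_
    · exact (Complex.measurable_ofReal.comp hw.measurable).aestronglyMeasurable
    · exact (Complex.measurable_ofReal.comp (hwm g)).aestronglyMeasurable
  · intro g
    refine Filter.Eventually.of_forall fun x => ?_
    rw [norm_mul, norm_mul, Complex.norm_real, Complex.norm_real, Real.norm_of_nonneg (hw.nonneg _),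
      Real.norm_of_nonneg (hw.nonneg _)]
    have h1 : ‖F x‖ ≤ |C| := (hC x).trans (le_abs_self C)
    have := hw.nonneg x
    have := hw.nonneg ((g : G) • y x)
    gcongr
  · refine Filter.Eventually.of_forall fun x => ?_
    exact ((hw.hasSum (y x)).mul_left (|C| * w x)).summable
  · have : (fun x => ∑' g : Γ, |C| * w x * w ((g : G) • y x)) = fun x => |C| * w x := by
      funext x
      rw [((hw.hasSum (y x)).mul_left (|C| * w x)).tsum_eq, mul_one]
    rw [this]
    exact hw.integrable.const_mul _
  · refine Filter.Eventually.of_forall fun x => ?_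
    have h := (hw.hasSum (y x)).mapL Complex.ofRealCLM
    have h2 := h.mul_left (F x * (w x : ℂ))
    simpa using h2

/-- Unfolding, inverse-indexed form. -/
theorem hasSum_integral_inv [Countable Γ] [MeasurableConstSMul G X] (hw : IsWeight μ Γ w)
    {F : X → ℂ} (hF : AEStronglyMeasurable F μ) {C : ℝ} (hC : ∀ x, ‖F x‖ ≤ C)
    {y : X → X} (hy : Measurable y) :
    HasSum (fun g : Γ => ∫ x, F x * (w x : ℂ) * (w (((g : G)⁻¹) • y x) : ℂ) ∂μ)
      (∫ x, F x * (w x : ℂ) ∂μ) := by
  have h := hw.hasSum_integral hF hC hy
  have := (Equiv.inv Γ).hasSum_iff.mpr h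
  simpa [Function.comp_def] using this

end IsWeight

end Fermat.Agent.FF3.Pet
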