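/-
PROGRAMME I, block D-Pet, node PET-5a (lead): the abstract symmetrisation identity behind the
self-adjointness of Hecke operators for a Petersson form defined through a Gamma-weight.
Mathlib only (on top of `Weight.lean`).
-/
import Fermat.Agent.FF3.Pet.Weight

set_option autoImplicit false

namespace Fermat.Agent.FF3.Pet

open MeasureTheory

/-- Fibrewise `HasSum`s over a finite second factor assemble to a `HasSum` over the product. -/
theorem hasSum_prod_of_fintype {κ ι : Type*} [Fintype ι] [DecidableEq ι] {a : κ × ι → ℂ}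
    {A : ι → ℂ} (h : ∀ i, HasSum (fun k => a (k, i)) (A i)) : HasSum a (∑ i, A i) := by
  have key : ∀ i, HasSum (fun p : κ × ι => if p.2 = i then a p else 0) (A i) := by
    intro i
    have hinj : Function.Injective fun k : κ => ((k, i) : κ × ι) := fun k k' hk => by
      simpa using congrArg Prod.fst hk
    refine (hinj.hasSum_iff ?_).mp ?_
    · rintro ⟨k, j⟩ hp
      have : j ≠ i := by
        rintro rfl
        exact hp ⟨k, rfl⟩
      simp [this]
    · simpa [Function.comp_def] using h i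
  have := hasSum_sum (s := Finset.univ) fun i _ => key i
  refine this.congr_fun ?_ |> fun h => h
  intro p
  simp

variable {G : Type*} [Group G] {X : Type*} [MeasurableSpace X] [MulAction G X]
  [MeasurableConstSMul G X] {μ : Measure X} [SMulInvariantMeasure G X μ]
  {Γ : Subgroup G} [Countable Γ] {w : X → ℝ}

/-- The twisted integral attached to `η`. -/
noncomputable def twInt (μ : Measure X) (w : X → ℝ) (Q : G → X → ℂ) (η : G) : ℂ :=
  ∫ x, Q η x * (w x : ℂ) * (w (η • x) : ℂ) ∂μ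

/-- **Symmetrisation.**  `Q η` plays the role of `petersson k f (g ∣[k] η)`, the `e i` are the
Hecke representatives. -/
theorem sum_integral_symm {ι : Type*} [Fintype ι] [DecidableEq ι] (hw : IsWeight μ Γ w)
    (e : ι → G) (Q : G → X → ℂ) {C : ℝ}
    (hQm : ∀ i, Measurable (Q (e i))) (hQm' : ∀ i, Measurable (Q (e i)⁻¹))
    (hQb : ∀ i x, ‖Q (e i) x‖ ≤ C) (hQb' : ∀ i x, ‖Q (e i)⁻¹ x‖ ≤ C)
    (hleft : ∀ (γ : Γ) i, Q ((γ : G) * e i) = Q (e i))
    (hright : ∀ (γ : Γ) i x, Q ((e i)⁻¹ * (γ : G)) x = Q (e i)⁻¹ ((γ : G) • x))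
    (σ : Γ × ι ≃ ι × Γ)
    (hσ : ∀ p : Γ × ι, twInt μ w Q ((p.1 : G) * e p.2) =
      twInt μ w Q ((e (σ p).1)⁻¹ * ((σ p).2 : G))) :
    ∑ i, ∫ x, Q (e i)⁻¹ (e i • x) * (w x : ℂ) ∂μ = ∑ i, ∫ x, Q (e i) x * (w x : ℂ) ∂μ := by
  -- right-hand side, unfolded
  have hR : ∀ i, HasSum (fun γ : Γ => twInt μ w Q ((γ : G) * e i))
      (∫ x, Q (e i) x * (w x : ℂ) ∂μ) := by
    intro i
    have h := hw.hasSum_integral (F := Q (e i)) (hQm i).aestronglyMeasurable (hQb i)
      (y := fun x => e i • x) (measurable_const_smul (e i))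
    refine h.congr_fun ?_ |> fun h => h
    intro γ
    simp only [twInt, hleft γ i, mul_smul]
  -- left-hand side, unfolded
  have hL : ∀ i, HasSum (fun γ : Γ => twInt μ w Q ((e i)⁻¹ * (γ : G)))
      (∫ x, Q (e i)⁻¹ (e i • x) * (w x : ℂ) ∂μ) := by
    intro i
    have hm : Measurable fun x => Q (e i)⁻¹ (e i • x) :=
      (hQm' i).comp (measurable_const_smul (e i))
    have h := hw.hasSum_integral_inv (F := fun x => Q (e i)⁻¹ (e i • x)) hm.aestronglyMeasurable
      (fun x => hQb' i _) (y := fun x => e i • x) (measurable_const_smul (e i))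
    refine h.congr_fun ?_ |> fun h => h
    intro γ
    -- substitute `x = ((e i)⁻¹ * γ) • v`
    have hsub := integral_smul_eq_self (μ := μ)
      (fun x => Q (e i)⁻¹ (e i • x) * (w x : ℂ) * (w (((γ : G)⁻¹) • e i • x) : ℂ))
      (g := (e i)⁻¹ * (γ : G))
    rw [← hsub]
    simp only [twInt]
    refine integral_congr_ae (Filter.Eventually.of_forall fun v => ?_)
    simp only [hright γ i, mul_smul, smul_inv_smul, inv_smul_smul]
    ring
  have hR' : HasSum (fun p : Γ × ι => twInt μ w Q ((p.1 : G) * e p.2))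
      (∑ i, ∫ x, Q (e i) x * (w x : ℂ) ∂μ) := hasSum_prod_of_fintype hR
  have hL' : HasSum (fun p : Γ × ι => twInt μ w Q ((e p.2)⁻¹ * (p.1 : G)))
      (∑ i, ∫ x, Q (e i)⁻¹ (e i • x) * (w x : ℂ) ∂μ) := hasSum_prod_of_fintype hL
  -- reindex
  have hL'' : HasSum (fun p : Γ × ι => twInt μ w Q ((p.1 : G) * e p.2))
      (∑ i, ∫ x, Q (e i)⁻¹ (e i • x) * (w x : ℂ) ∂μ) := by
    have h1 : HasSum (fun q : ι × Γ => twInt μ w Q ((e q.1)⁻¹ * (q.2 : G)))
        (∑ i, ∫ x, Q (e i)⁻¹ (e i • x) * (w x : ℂ) ∂μ) := by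
      have := (Equiv.prodComm ι Γ).hasSum_iff.mpr hL'
      simpa [Function.comp_def] using this
    have h2 := σ.hasSum_iff.mpr h1
    refine h2.congr_fun ?_ |> fun h => h
    intro p
    simp only [Function.comp_def]
    exact hσ p
  exact hL''.unique hR'

end Fermat.Agent.FF3.Pet
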