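/-
PROGRAMME I, block D-Pet, node PET-5b (lead, route A): self-adjointness of the Prelude's `heckeT 2 ℓ`
(`ℓ ∤ N`) for the Petersson product `PetIP.pet 2 χ` attached to any `Γ₀(N)`-weight of finite mass.
Instantiation of the abstract symmetrisation identity `sum_integral_symm` with
`Q A := petersson 2 f (g ∣[2] A)` and the coset bijection `heckeEquivGamma0`.
-/
import Fermat.Agent.FF3.Pet.Sym
import Fermat.Agent.FF3.Pet.HeckeReal
import Fermat.Agent.FF3.PetBound.Forms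
import Fermat.Agent.FF3.PetIP.Level

set_option autoImplicit false

namespace Fermat.Agent.FF3.Pet

open MeasureTheory UpperHalfPlane Matrix
open scoped MatrixGroups ModularForm ENNReal

/-- An orbit weight of finite mass in the sense of `PetUnfold` gives a real weight. -/
theorem isWeight_toReal {Γ : Subgroup (GL (Fin 2) ℝ)} {χ : ℍ → ℝ≥0∞}
    (hχ : PetUnfold.IsWeight Γ χ) (hfin : ∫⁻ τ, χ τ < ⊤) :
    IsWeight (volume : Measure ℍ) Γ (fun τ => (χ τ).toReal) where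
  measurable := hχ.measurable.ennreal_toReal
  nonneg := fun _ => ENNReal.toReal_nonneg
  integrable := integrable_toReal_of_lintegral_ne_top hχ.measurable.aemeasurable hfin.ne
  hasSum := fun x => by
    have h1 : ∑' δ : Γ, χ ((δ : GL (Fin 2) ℝ) • x) ≠ ⊤ := by
      rw [hχ.tsum_eq_one x]; exact ENNReal.one_ne_top
    have h2 := ENNReal.hasSum_toReal h1
    have h3 : ∑' δ : Γ, (χ ((δ : GL (Fin 2) ℝ) • x)).toReal = 1 := by
      rw [← ENNReal.tsum_toReal_eq (fun δ => hχ.ne_top _), hχ.tsum_eq_one x, ENNReal.toReal_one]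
    rw [h3] at h2
    exact h2

variable {N : ℕ} [NeZero N] {ℓ : ℕ} [hℓ : Fact ℓ.Prime]

/-- `heckeT 2 ℓ` as a sum over the projective line. -/
theorem heckeT_eq_sum_heckeGL (F : ℍ → ℂ) :
    ModularForm.heckeT 2 ℓ F =
      haveI : NeZero ℓ := ⟨hℓ.out.ne_zero⟩
      ∑ i : Option (ZMod ℓ), F ∣[(2 : ℤ)] heckeGL ℓ i := by
  have : NeZero ℓ := ⟨hℓ.out.ne_zero⟩
  rw [Fintype.sum_option, ModularForm.heckeT_def, add_comm]
  congr 1
  obtain ⟨n, rfl⟩ : ∃ n, ℓ = n + 1 := ⟨ℓ - 1, (Nat.succ_pred_eq_of_pos hℓ.out.pos).symm⟩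
  exact (Fin.sum_univ_eq_sum_range (fun j => F ∣[(2 : ℤ)] ModularForm.heckeMatrix (n + 1) j)
    (n + 1)).symm


/-- The image of `Γ₀(N)` in `GL (Fin 2) ℝ`. -/
local notation "ΓN" => ((CongruenceSubgroup.Gamma0 N : Subgroup SL(2, ℤ)) : Subgroup (GL (Fin 2) ℝ))

/-- `Γ₀(N) ≃` its image in `GL (Fin 2) ℝ`. -/
noncomputable def gammaEquiv : ↥(CongruenceSubgroup.Gamma0 N) ≃ ↥ΓN :=
  (Subgroup.equivMapOfInjective (CongruenceSubgroup.Gamma0 N)
    (Matrix.SpecialLinearGroup.mapGL ℝ : SL(2, ℤ) →* GL (Fin 2) ℝ)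
    Matrix.SpecialLinearGroup.mapGL_injective).toEquiv

omit [NeZero N] in
theorem coe_gammaEquiv (γ : ↥(CongruenceSubgroup.Gamma0 N)) :
    ((gammaEquiv (N := N) γ : ↥ΓN) : GL (Fin 2) ℝ) = Matrix.SpecialLinearGroup.mapGL ℝ (γ : SL(2, ℤ)) :=
  rfl

omit [NeZero N] in
theorem coe_gammaEquiv_symm (δ : ↥ΓN) :
    Matrix.SpecialLinearGroup.mapGL ℝ (((gammaEquiv (N := N)).symm δ : ↥(CongruenceSubgroup.Gamma0 N)) :
      SL(2, ℤ)) = (δ : GL (Fin 2) ℝ) := by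
  rw [← coe_gammaEquiv, Equiv.apply_symm_apply]

/-- The coset bijection on the image of `Γ₀(N)`. -/
noncomputable def heckeEquivReal (hN : ¬ ℓ ∣ N) :
    ↥ΓN × Option (ZMod ℓ) ≃ Option (ZMod ℓ) × ↥ΓN :=
  ((gammaEquiv (N := N)).symm.prodCongr (Equiv.refl _)).trans
    ((heckeEquivGamma0 hN).trans ((Equiv.refl _).prodCongr (gammaEquiv (N := N))))

theorem heckeEquivReal_spec (hN : ¬ ℓ ∣ N) (p : ↥ΓN × Option (ZMod ℓ)) :
    (((p.1 : GL (Fin 2) ℝ) * heckeGL ℓ p.2 : GL (Fin 2) ℝ) : Matrix (Fin 2) (Fin 2) ℝ) =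
      (ℓ : ℝ) • (((heckeGL ℓ (heckeEquivReal hN p).1)⁻¹ *
        ((heckeEquivReal hN p).2 : GL (Fin 2) ℝ) : GL (Fin 2) ℝ) : Matrix (Fin 2) (Fin 2) ℝ) := by
  obtain ⟨δ, i⟩ := p
  have h := heckeRel_heckeEquivGamma0 hN ((gammaEquiv (N := N)).symm δ, i)
  have h' := heckeRel_real h
  rw [coe_gammaEquiv_symm] at h'
  have e1 : (heckeEquivReal hN (δ, i)).1 =
      (heckeEquivGamma0 hN ((gammaEquiv (N := N)).symm δ, i)).1 := rfl
  have e2 : (((heckeEquivReal hN (δ, i)).2 : ↥ΓN) : GL (Fin 2) ℝ) =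
      Matrix.SpecialLinearGroup.mapGL ℝ
        (((heckeEquivGamma0 hN ((gammaEquiv (N := N)).symm δ, i)).2 :
          ↥(CongruenceSubgroup.Gamma0 N)) : SL(2, ℤ)) := rfl
  rw [e1, e2]
  exact h'

/-- **Self-adjointness of `heckeT 2 ℓ`** for the Petersson product of any `Γ₀(N)`-weight of finite
mass (`ℓ ∤ N`). -/
theorem pet_heckeT_eq (hN : ¬ ℓ ∣ N) {χ : ℍ → ℝ≥0∞} (hχ : PetUnfold.IsWeight ΓN χ)
    (hfin : ∫⁻ τ, χ τ < ⊤) (f g : CuspForm (CongruenceSubgroup.Gamma0 N) 2) :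
    PetIP.pet 2 χ (ModularForm.heckeT 2 ℓ ⇑f) ⇑g = PetIP.pet 2 χ ⇑f (ModularForm.heckeT 2 ℓ ⇑g) := by
  have : NeZero ℓ := ⟨hℓ.out.ne_zero⟩
  have hw := isWeight_toReal hχ hfin
  have : Countable ↥ΓN := PetIP.countable_of_isArithmetic _
  set w : ℍ → ℝ := fun τ => (χ τ).toReal with hwdef
  let e : Option (ZMod ℓ) → GL (Fin 2) ℝ := heckeGL ℓ
  let Q : GL (Fin 2) ℝ → ℍ → ℂ := fun A => petersson 2 ⇑f (⇑g ∣[(2 : ℤ)] A)
  have hQc : ∀ A, Continuous (Q A) := fun A => by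
    have := PetBound.continuous_petersson_two f g 1 A
    simpa only [SlashAction.slash_one] using this
  have hQbd : ∀ A, ∃ C, ∀ τ, ‖Q A τ‖ ≤ C := fun A => by
    have := PetBound.exists_bound_petersson_two f g 1 A
    simpa only [SlashAction.slash_one] using this
  choose C₁ hC₁ using fun i => hQbd (e i)
  choose C₂ hC₂ using fun i => hQbd (e i)⁻¹
  set C : ℝ := ∑ i, |C₁ i| + ∑ i, |C₂ i| with hCdef
  have hQb : ∀ i x, ‖Q (e i) x‖ ≤ C := fun i x => by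
    have h1 : |C₁ i| ≤ ∑ j, |C₁ j| :=
      Finset.single_le_sum (f := fun j => |C₁ j|) (fun j _ => abs_nonneg _) (Finset.mem_univ i)
    have h2 : 0 ≤ ∑ j, |C₂ j| := Finset.sum_nonneg fun j _ => abs_nonneg _
    calc ‖Q (e i) x‖ ≤ C₁ i := hC₁ i x
      _ ≤ |C₁ i| := le_abs_self _
      _ ≤ C := by rw [hCdef]; linarith
  have hQb' : ∀ i x, ‖Q (e i)⁻¹ x‖ ≤ C := fun i x => by
    have h1 : |C₂ i| ≤ ∑ j, |C₂ j| :=
      Finset.single_le_sum (f := fun j => |C₂ j|) (fun j _ => abs_nonneg _) (Finset.mem_univ i)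
    have h2 : 0 ≤ ∑ j, |C₁ j| := Finset.sum_nonneg fun j _ => abs_nonneg _
    calc ‖Q (e i)⁻¹ x‖ ≤ C₂ i := hC₂ i x
      _ ≤ |C₂ i| := le_abs_self _
      _ ≤ C := by rw [hCdef]; linarith
  have hleft : ∀ (γ : ↥ΓN) i, Q ((γ : GL (Fin 2) ℝ) * e i) = Q (e i) := fun γ i => by
    show petersson 2 ⇑f (⇑g ∣[(2 : ℤ)] ((γ : GL (Fin 2) ℝ) * e i)) = petersson 2 ⇑f (⇑g ∣[(2 : ℤ)] e i)
    rw [SlashAction.slash_mul, SlashInvariantFormClass.slash_action_eq g _ γ.2]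
  have hright : ∀ (γ : ↥ΓN) i x, Q ((e i)⁻¹ * (γ : GL (Fin 2) ℝ)) x = Q (e i)⁻¹ ((γ : GL (Fin 2) ℝ) • x) :=
    fun γ i x => by
      show petersson 2 ⇑f (⇑g ∣[(2 : ℤ)] ((e i)⁻¹ * (γ : GL (Fin 2) ℝ))) x =
        petersson 2 ⇑f (⇑g ∣[(2 : ℤ)] (e i)⁻¹) ((γ : GL (Fin 2) ℝ) • x)
      have hdet : (0 : ℝ) < ((γ : GL (Fin 2) ℝ).det : ℝ) := by
        rw [Subgroup.HasDetOne.det_eq γ.2]; simp
      rw [← PetBound.petersson_two_slash_of_det_pos ⇑f (⇑g ∣[(2 : ℤ)] (e i)⁻¹) hdet x,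
        ← SlashAction.slash_mul, SlashInvariantFormClass.slash_action_eq f _ γ.2]
  have hσ : ∀ p : ↥ΓN × Option (ZMod ℓ), twInt volume w Q ((p.1 : GL (Fin 2) ℝ) * e p.2) =
      twInt volume w Q ((e (heckeEquivReal hN p).1)⁻¹ * ((heckeEquivReal hN p).2 : GL (Fin 2) ℝ)) :=
    fun p => by
      have hℓpos : (0 : ℝ) < (ℓ : ℝ) := by exact_mod_cast hℓ.out.pos
      have hrel := heckeEquivReal_spec hN p
      have h1 : Q ((p.1 : GL (Fin 2) ℝ) * e p.2) =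
          Q ((e (heckeEquivReal hN p).1)⁻¹ * ((heckeEquivReal hN p).2 : GL (Fin 2) ℝ)) := by
        show petersson 2 ⇑f (⇑g ∣[(2 : ℤ)] _) = petersson 2 ⇑f (⇑g ∣[(2 : ℤ)] _)
        rw [slash_eq_of_val_eq_smul hℓpos hrel]
      have h2 : ∀ x : ℍ, ((p.1 : GL (Fin 2) ℝ) * e p.2) • x =
          ((e (heckeEquivReal hN p).1)⁻¹ * ((heckeEquivReal hN p).2 : GL (Fin 2) ℝ)) • x :=
        fun x => smul_eq_of_val_eq_smul hℓpos hrel x
      simp only [twInt, h1, h2]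
  have key := sum_integral_symm (μ := (volume : Measure ℍ)) hw e Q
    (fun i => (hQc _).measurable) (fun i => (hQc _).measurable) hQb hQb' hleft hright
    (heckeEquivReal hN) hσ
  -- identify the two sides
  have hint : ∀ A B : GL (Fin 2) ℝ,
      Integrable (fun τ => petersson 2 (⇑f ∣[(2 : ℤ)] A) (⇑g ∣[(2 : ℤ)] B) τ * ((w τ : ℝ) : ℂ)) :=
    fun A B => by
      obtain ⟨C', hC'⟩ := PetBound.exists_bound_petersson_two f g A B
      exact PetIP.integrable_mul_weight hχ.measurable hfin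
        (PetBound.continuous_petersson_two f g A B).aestronglyMeasurable hC'
  have hL : PetIP.pet 2 χ (ModularForm.heckeT 2 ℓ ⇑f) ⇑g =
      ∑ i, ∫ x, Q (e i)⁻¹ (e i • x) * ((w x : ℝ) : ℂ) := by
    rw [PetIP.pet_def, heckeT_eq_sum_heckeGL]
    have h1 : ∀ τ, petersson 2 (∑ i : Option (ZMod ℓ), ⇑f ∣[(2 : ℤ)] heckeGL ℓ i) ⇑g τ *
        (((χ τ).toReal : ℝ) : ℂ) =
        ∑ i, Q (e i)⁻¹ (e i • τ) * ((w τ : ℝ) : ℂ) := by
      intro τ
      rw [← Finset.sum_mul]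
      congr 1
      simp only [petersson, Finset.sum_apply, map_sum, Finset.sum_mul]
      refine Finset.sum_congr rfl fun i _ => ?_
      have := PetBound.petersson_two_slash_left ⇑f ⇑g (det_heckeGL_pos i) τ
      simp only [petersson] at this
      exact this
    simp_rw [h1]
    rw [integral_finsetSum]
    intro i _
    have := hint (e i) 1
    simp only [SlashAction.slash_one] at this
    refine this.congr (Filter.Eventually.of_forall fun τ => ?_)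
    show petersson 2 (⇑f ∣[(2 : ℤ)] e i) ⇑g τ * _ = Q (e i)⁻¹ (e i • τ) * _
    rw [PetBound.petersson_two_slash_left ⇑f ⇑g (det_heckeGL_pos i) τ]
  have hR : PetIP.pet 2 χ ⇑f (ModularForm.heckeT 2 ℓ ⇑g) =
      ∑ i, ∫ x, Q (e i) x * ((w x : ℝ) : ℂ) := by
    rw [PetIP.pet_def, heckeT_eq_sum_heckeGL]
    have h1 : ∀ τ, petersson 2 ⇑f (∑ i : Option (ZMod ℓ), ⇑g ∣[(2 : ℤ)] heckeGL ℓ i) τ *
        (((χ τ).toReal : ℝ) : ℂ) =
        ∑ i, Q (e i) τ * ((w τ : ℝ) : ℂ) := by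
      intro τ
      rw [← Finset.sum_mul]
      congr 1
      simp only [Q, e, petersson, Finset.sum_apply, Finset.mul_sum, Finset.sum_mul]
    simp_rw [h1]
    rw [integral_finsetSum]
    intro i _
    have := hint 1 (e i)
    simp only [SlashAction.slash_one] at this
    exact this
  rw [hL, hR]
  exact key

end Fermat.Agent.FF3.Pet
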