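/-
PROGRAMME I, block D-Pet, TOP (lead, route A): the Petersson interface `PetAlg.PeterssonData N`
is inhabited, hence the anemic Hecke algebra of weight 2 is reduced and the Hecke ring `T` of a
`HeckeGaloisRepDatum` is reduced.
-/
import Fermat.Agent.FF3.Pet.Adjoint
import Fermat.Agent.FF3.PetAlg.Datum

set_option autoImplicit false

namespace Fermat.Agent.FF3.Pet

open MeasureTheory UpperHalfPlane Matrix CuspForm
open scoped MatrixGroups ModularForm ENNReal

/-- **The Petersson data exist** (route A: weights + coset bijection). -/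
theorem exists_petersson (N : ℕ) [NeZero N] : Nonempty (PetAlg.PeterssonData N) := by
  refine ⟨{
    ip := PetIP.petArith ((CongruenceSubgroup.Gamma0 N : Subgroup SL(2, ℤ)) :
      Subgroup (GL (Fin 2) ℝ)) 2
    add_left := PetIP.petArith_add_left _
    add_right := PetIP.petArith_add_right _
    definite := PetIP.petArith_self_eq_zero _
    heckeT_adjoint := ?_ }⟩
  intro ℓ hℓ hℓN f g
  have : Fact ℓ.Prime := ⟨hℓ⟩
  exact pet_heckeT_eq hℓN (PetIP.isWeight_weightOf _) (PetIP.lintegral_weightOf_lt_top _) f g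

/-- **The Hecke ring of a datum is reduced** (hypothesis-free form of `PetAlg.isReduced_of_datum`). -/
theorem isReduced_of_datum {N : ℕ} [NeZero N] {S : Set ℕ}
    (hNS : ∀ q : ℕ, q.Prime → q ∣ N → q ∈ S)
    {𝒪 : Type} [CommRing 𝒪] [IsDomain 𝒪] [IsDiscreteValuationRing 𝒪]
    [IsAdicComplete (IsLocalRing.maximalIdeal 𝒪) 𝒪] [CharZero 𝒪]
    {θ : heckeAlgebra N 2 S →+* IsLocalRing.ResidueField 𝒪}
    {T : Type} [CommRing T] [IsLocalRing T] [IsNoetherianRing T]
    [IsAdicComplete (IsLocalRing.maximalIdeal T) T] [Algebra 𝒪 T] [IsLocalHom (algebraMap 𝒪 T)]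
    [Module.Finite 𝒪 T] [Module.Free 𝒪 T]
    (H : HeckeGaloisRepDatum N S 𝒪 θ T) : IsReduced T :=
  PetAlg.isReduced_of_datum (exists_petersson N).some hNS H

/-- The anemic Hecke algebra of weight 2 is reduced. -/
theorem isReduced_heckeAlgebra {N : ℕ} [NeZero N] {S : Set ℕ}
    (hNS : ∀ q : ℕ, q.Prime → q ∣ N → q ∈ S) : IsReduced (CuspForm.heckeAlgebra N 2 S) :=
  PetAlg.isReduced_heckeAlgebra (exists_petersson N).some hNS

end Fermat.Agent.FF3.Pet
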